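import Fermat.Agent.S25.H506.ValCore

/-!
# S25, block ALGVAL: passing from a chart to the overlap (abstract form)

Base change of a linear equivalence along `R → S` and transport of the normalisation relation
`ρ c' • b' (e n) = ρ c • f (b n)` from a chart to the overlap.
-/

set_option autoImplicit false
set_option linter.unusedSectionVars false
open scoped TensorProduct

namespace Fermat.Agent.S25.H506

section BaseChangeEquiv

variable {R S : Type*} [CommRing R] [CommRing S] [Algebra R S]
variable {N N' M M' : Type*} [AddCommGroup N] [Module R N] [AddCommGroup N'] [Module R N']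
  [AddCommGroup M] [Module R M] [Module S M] [IsScalarTower R S M]
  [AddCommGroup M'] [Module R M'] [Module S M'] [IsScalarTower R S M']
  {r : N →ₗ[R] M} {r' : N' →ₗ[R] M'}

/-- Base change of a linear equivalence along base change maps `r`, `r'`. -/
noncomputable def baseChangeEquiv (h : IsBaseChange S r) (h' : IsBaseChange S r')
    (e : N ≃ₗ[R] N') : M ≃ₗ[S] M' :=
  h.equiv.symm ≪≫ₗ LinearEquiv.baseChange R S N N' e ≪≫ₗ h'.equiv

theorem baseChangeEquiv_apply (h : IsBaseChange S r) (h' : IsBaseChange S r')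
    (e : N ≃ₗ[R] N') (s : N) : baseChangeEquiv h h' e (r s) = r' (e s) := by
  simp [baseChangeEquiv, IsBaseChange.equiv_symm_apply, IsBaseChange.equiv_tmul]

end BaseChangeEquiv

section Overlap

variable {R S R' S' : Type*} [CommRing R] [CommRing S] [CommRing R'] [CommRing S']
  [Algebra R S] [Algebra R' S'] {ρ : R →+* R'} {σ : S →+* S'}
variable {N N' M M' : Type*} [AddCommGroup N] [Module R N] [AddCommGroup N'] [Module R N']
  [AddCommGroup M] [Module R M] [Module S M] [IsScalarTower R S M]
  [AddCommGroup M'] [Module R M'] [Module S M'] [IsScalarTower R S M']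
variable {NK NK' MK MK' : Type*} [AddCommGroup NK] [Module R' NK] [AddCommGroup NK']
  [Module R' NK'] [AddCommGroup MK] [Module R' MK] [Module S' MK] [IsScalarTower R' S' MK]
  [AddCommGroup MK'] [Module R' MK'] [Module S' MK'] [IsScalarTower R' S' MK']

/-- Transport of the normalisation relation from a chart to the overlap. -/
theorem overlap_rel (hσ : ∀ x : R, σ (algebraMap R S x) = algebraMap R' S' (ρ x))
    {r : N →ₗ[R] M} (hr : IsBaseChange S r) {r' : N' →ₗ[R] M'}
    {rK : NK →ₗ[R'] MK} {rK' : NK' →ₗ[R'] MK'}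
    {b : N →ₛₗ[ρ] NK} {b' : N' →ₛₗ[ρ] NK'} {bM : M →ₛₗ[σ] MK} {bM' : M' →ₛₗ[σ] MK'}
    (hb : ∀ s, bM (r s) = rK (b s)) (hb' : ∀ s, bM' (r' s) = rK' (b' s))
    {f : NK ≃ₗ[R'] NK'} {fM : MK ≃ₗ[S'] MK'} (hf : ∀ y, fM (rK y) = rK' (f y))
    {e : N ≃ₗ[R] N'} {E : M ≃ₗ[S] M'} (hE : ∀ s, E (r s) = r' (e s))
    {c c' : R} (hc : ∀ n, ρ c' • b' (e n) = ρ c • f (b n)) (z : M) :
    σ (algebraMap R S c') • bM' (E z) = σ (algebraMap R S c) • fM (bM z) := by
  refine hr.inductionOn z
    (fun z => σ (algebraMap R S c') • bM' (E z) = σ (algebraMap R S c) • fM (bM z))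
    (by simp) (fun s => ?_) (fun t z hz => ?_) (fun z z' hz hz' => ?_)
  · rw [hE, hb', hb, hf, hσ, hσ, algebraMap_smul, algebraMap_smul, ← map_smul, hc, map_smul]
  · rw [map_smul, LinearMap.map_smulₛₗ, LinearMap.map_smulₛₗ, map_smul, smul_comm, hz,
      smul_comm]
  · rw [map_add, map_add, map_add, map_add, smul_add, smul_add, hz, hz']

end Overlap

end Fermat.Agent.S25.H506
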