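import Fermat.Agent.S25.H506.AlgValRing
import Fermat.Agent.S25.H506.AlgValOverlap
import Fermat.Agent.S25.H567.TensorDomain

/-!
# S25, block ALGVAL: `Stmt.AlgVal` (Gauss lemma route)

Over a valuation ring `V ⊇ k` with fraction field `K`, two gluing data on the curve chart
which become isomorphic over `K` are isomorphic.  No degree hypothesis is needed: only that
`κ ⊗[k] B₀`, `κ ⊗[k] B₁`, `κ ⊗[k] B₀₁` are domains (or `B₀₁ = 0`), `κ` the residue field of `V`.
-/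

set_option autoImplicit false
set_option linter.unusedSectionVars false
set_option linter.style.haveILetI false
universe u
open scoped TensorProduct
open IsLocalRing

namespace Fermat.Agent.S25.H506

open Fermat.Agent.S25

section Main

variable {k : Type u} [Field k]
variable {B₀ B₁ B₀₁ : Type u} [CommRing B₀] [CommRing B₁] [CommRing B₀₁]
  [Algebra k B₀] [Algebra k B₁] [Algebra k B₀₁] [Algebra B₀ B₀₁] [Algebra B₁ B₀₁]
  [IsScalarTower k B₀ B₀₁] [IsScalarTower k B₁ B₀₁]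
variable {V : Type u} [CommRing V] [IsDomain V] [ValuationRing V] [Algebra k V]
  {K : Type u} [Field K] [Algebra V K] [IsFractionRing V K] [Algebra k K] [IsScalarTower k V K]

/-- Compatibility of `genMap` with the maps `A ⊗ B → A ⊗ B'`. -/
theorem genMap_algebraMap_right (B B' : Type u) [CommRing B] [CommRing B'] [Algebra k B]
    [Algebra k B'] [Algebra B B'] [IsScalarTower k B B'] (x : V ⊗[k] B) :
    genMap k V K B' (algebraMap (V ⊗[k] B) (V ⊗[k] B') x) =
      algebraMap (K ⊗[k] B) (K ⊗[k] B') (genMap k V K B x) := by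
  induction x using TensorProduct.induction_on with
  | zero => simp
  | tmul v β =>
    change genMap k V K B' (tensorMapRight k V B B' (v ⊗ₜ β)) =
      tensorMapRight k K B B' (genMap k V K B (v ⊗ₜ β))
    simp [tensorMapRight]
  | add x y hx hy => rw [map_add, map_add, map_add, map_add, hx, hy]

/-- **ALGVAL, general form.** -/
theorem isIso_of_isIso_generic
    (hP₀ : (maxMap V (V ⊗[k] B₀)).IsPrime) (hP₁ : (maxMap V (V ⊗[k] B₁)).IsPrime)
    (hP₀₁ : Subsingleton (V ⊗[k] B₀₁) ∨ (maxMap V (V ⊗[k] B₀₁)).IsPrime)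
    (G G' : CurveGD k B₀ B₁ B₀₁ V) (GK GK' : CurveGD k B₀ B₁ B₀₁ K)
    (hG : CurveGD.IsBC (IsScalarTower.toAlgHom k V K) G GK)
    (hG' : CurveGD.IsBC (IsScalarTower.toAlgHom k V K) G' GK')
    (hK : GK.IsIso GK') : G.IsIso G' := by
  obtain ⟨bc⟩ := hG
  obtain ⟨bc'⟩ := hG'
  obtain ⟨isoK⟩ := hK
  haveI := G.invertible₀
  haveI := G.invertible₁
  haveI := G'.invertible₀
  haveI := G'.invertible₁
  haveI : Module.Invertible (V ⊗[k] B₀₁) G.N₀₁ :=
    Module.Invertible.congr G.isBaseChange₀.equiv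
  haveI : Module.Invertible (V ⊗[k] B₀₁) G'.N₀₁ :=
    Module.Invertible.congr G'.isBaseChange₀.equiv
  -- generic localisations
  have L₀ : IsGenericLoc V (genMap k V K B₀) bc.b₀ :=
    isGenericLoc_of_isSemilinearBaseChange _ (genMap_injective k V K B₀) (genMap_loc k V K B₀)
      (fun _ _ => mul_ne_zero) bc.b₀ bc.isBaseChange₀
  have L₀' : IsGenericLoc V (genMap k V K B₀) bc'.b₀ :=
    isGenericLoc_of_isSemilinearBaseChange _ (genMap_injective k V K B₀) (genMap_loc k V K B₀)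
      (fun _ _ => mul_ne_zero) bc'.b₀ bc'.isBaseChange₀
  have L₁ : IsGenericLoc V (genMap k V K B₁) bc.b₁ :=
    isGenericLoc_of_isSemilinearBaseChange _ (genMap_injective k V K B₁) (genMap_loc k V K B₁)
      (fun _ _ => mul_ne_zero) bc.b₁ bc.isBaseChange₁
  have L₁' : IsGenericLoc V (genMap k V K B₁) bc'.b₁ :=
    isGenericLoc_of_isSemilinearBaseChange _ (genMap_injective k V K B₁) (genMap_loc k V K B₁)
      (fun _ _ => mul_ne_zero) bc'.b₁ bc'.isBaseChange₁
  have L₀₁' : IsGenericLoc V (genMap k V K B₀₁) bc'.b₀₁ :=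
    isGenericLoc_of_isSemilinearBaseChange _ (genMap_injective k V K B₀₁)
      (genMap_loc k V K B₀₁) (fun _ _ => mul_ne_zero) bc'.b₀₁ bc'.isBaseChange₀₁
  -- the core on the two charts
  obtain ⟨a₀, a₀', ha₀, ha₀', e₀, he₀⟩ := exists_equiv_of_loc L₀ L₀' isoK.e₀
  obtain ⟨a₁, a₁', ha₁, ha₁', e₁, he₁⟩ := exists_equiv_of_loc L₁ L₁' isoK.e₁
  -- base change to the overlap
  let E₀ : G.N₀₁ ≃ₗ[V ⊗[k] B₀₁] G'.N₀₁ := baseChangeEquiv G.isBaseChange₀ G'.isBaseChange₀ e₀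
  let E₁ : G.N₀₁ ≃ₗ[V ⊗[k] B₀₁] G'.N₀₁ := baseChangeEquiv G.isBaseChange₁ G'.isBaseChange₁ e₁
  have hE₀ : ∀ s, E₀ (G.r₀ s) = G'.r₀ (e₀ s) := baseChangeEquiv_apply _ _ _
  have hE₁ : ∀ s, E₁ (G.r₁ s) = G'.r₁ (e₁ s) := baseChangeEquiv_apply _ _ _
  rcases hP₀₁ with hsub | hP₀₁
  · -- degenerate case: the overlap is empty
    haveI : Subsingleton G'.N₀₁ := Module.subsingleton (V ⊗[k] B₀₁) _
    exact ⟨⟨e₀, e₁, E₀, fun s => Subsingleton.elim _ _, fun s => Subsingleton.elim _ _⟩⟩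
  · have rel₀ : ∀ z, genMap k V K B₀₁ (algebraMap V (V ⊗[k] B₀₁) a₀') • bc'.b₀₁ (E₀ z) =
        genMap k V K B₀₁ (algebraMap V (V ⊗[k] B₀₁) a₀) • isoK.e₀₁ (bc.b₀₁ z) := by
      intro z
      have := overlap_rel (ρ := genMap k V K B₀) (σ := genMap k V K B₀₁)
        (genMap_algebraMap_right B₀ B₀₁) G.isBaseChange₀ (r' := G'.r₀) (rK := GK.r₀)
        (rK' := GK'.r₀) (b := bc.b₀) (b' := bc'.b₀) (bM := bc.b₀₁) (bM' := bc'.b₀₁)
        bc.comm₀ bc'.comm₀ (f := isoK.e₀) (fM := isoK.e₀₁) isoK.comm₀ (e := e₀) (E := E₀) hE₀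
        (c := algebraMap V _ a₀) (c' := algebraMap V _ a₀') he₀ z
      rwa [← IsScalarTower.algebraMap_apply, ← IsScalarTower.algebraMap_apply] at this
    have rel₁ : ∀ z, genMap k V K B₀₁ (algebraMap V (V ⊗[k] B₀₁) a₁') • bc'.b₀₁ (E₁ z) =
        genMap k V K B₀₁ (algebraMap V (V ⊗[k] B₀₁) a₁) • isoK.e₀₁ (bc.b₀₁ z) := by
      intro z
      have := overlap_rel (ρ := genMap k V K B₁) (σ := genMap k V K B₀₁)
        (genMap_algebraMap_right B₁ B₀₁) G.isBaseChange₁ (r' := G'.r₁) (rK := GK.r₁)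
        (rK' := GK'.r₁) (b := bc.b₁) (b' := bc'.b₁) (bM := bc.b₀₁) (bM' := bc'.b₀₁)
        bc.comm₁ bc'.comm₁ (f := isoK.e₁) (fM := isoK.e₀₁) isoK.comm₁ (e := e₁) (E := E₁) hE₁
        (c := algebraMap V _ a₁) (c' := algebraMap V _ a₁') he₁ z
      rwa [← IsScalarTower.algebraMap_apply, ← IsScalarTower.algebraMap_apply] at this
    have cmp : ∀ z, algebraMap V (V ⊗[k] B₀₁) (a₁ * a₀') • E₀ z =
        algebraMap V (V ⊗[k] B₀₁) (a₀ * a₁') • E₁ z := by
      intro z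
      apply L₀₁'.inj
      rw [LinearMap.map_smulₛₗ, LinearMap.map_smulₛₗ, map_mul, map_mul, map_mul, map_mul,
        mul_smul, mul_smul, rel₀, rel₁, smul_comm]
    obtain ⟨u, hu⟩ := exists_unit_smul_eq E₀ E₁ (mul_ne_zero ha₁ ha₀') (mul_ne_zero ha₀ ha₁') cmp
    let U : (V ⊗[k] B₁)ˣ := Units.map (algebraMap V (V ⊗[k] B₁)).toMonoidHom u
    refine ⟨⟨e₀, e₁ ≪≫ₗ LinearEquiv.smulOfUnit U, E₀, hE₀, fun s => ?_⟩⟩
    rw [hu, hE₁]
    change _ = G'.r₁ ((U : V ⊗[k] B₁) • e₁ s)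
    rw [map_smul, ← algebraMap_smul (V ⊗[k] B₀₁) (U : V ⊗[k] B₁) (G'.r₁ (e₁ s))]
    congr 1
    exact IsScalarTower.algebraMap_apply V (V ⊗[k] B₁) (V ⊗[k] B₀₁) (u : V)

/-- **ALGVAL** (`Stmt.AlgVal`, frozen statement of `DefsAlg.lean`) over an algebraically closed
field.  The degree hypotheses are not used. -/
theorem algVal [IsAlgClosed k] : Stmt.AlgVal k B₀ B₁ B₀₁ := by
  intro x y e hC V _ _ _ _ K _ _ _ _ _ G G' GK GK' _ _ hG hG' hK
  haveI := hC.isDomain₀
  haveI := hC.isDomain₁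
  have hP₀ : (maxMap V (V ⊗[k] B₀)).IsPrime := by
    haveI : IsDomain (ResidueField V ⊗[k] B₀) :=
      H567.isDomain_tensorProduct_of_isAlgClosed k _ _
    exact maxMap_isPrime V B₀
  have hP₁ : (maxMap V (V ⊗[k] B₁)).IsPrime := by
    haveI : IsDomain (ResidueField V ⊗[k] B₁) :=
      H567.isDomain_tensorProduct_of_isAlgClosed k _ _
    exact maxMap_isPrime V B₁
  have hP₀₁ : Subsingleton (V ⊗[k] B₀₁) ∨ (maxMap V (V ⊗[k] B₀₁)).IsPrime := by
    rcases subsingleton_or_nontrivial B₀₁ with hs | hn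
    · left
      refine subsingleton_of_zero_eq_one ?_
      rw [Algebra.TensorProduct.one_def, Subsingleton.elim (1 : B₀₁) 0, TensorProduct.tmul_zero]
    · right
      haveI : IsLocalization (Submonoid.powers x) B₀₁ := hC.away₀
      have hx : x ≠ 0 := by
        rintro rfl
        haveI : Subsingleton B₀₁ :=
          IsLocalization.subsingleton (M := Submonoid.powers (0 : B₀)) (S := B₀₁)
            ⟨1, by simp⟩
        exact not_subsingleton B₀₁ ‹_›
      haveI : IsDomain B₀₁ :=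
        IsLocalization.isDomain_of_le_nonZeroDivisors (M := Submonoid.powers x) B₀₁
          (powers_le_nonZeroDivisors_of_noZeroDivisors hx)
      haveI : IsDomain (ResidueField V ⊗[k] B₀₁) :=
        H567.isDomain_tensorProduct_of_isAlgClosed k _ _
      exact maxMap_isPrime V B₀₁
  exact isIso_of_isIso_generic hP₀ hP₁ hP₀₁ G G' GK GK' hG hG' hK

end Main

end Fermat.Agent.S25.H506
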