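import Mathlib

/-!
# S25, pillar `Val`: the algebra core (Gauss lemma route, no degree, no cohomology)

`V` is a valuation ring (a domain), `R` a `V`-algebra which is free as a `V`-module and such that
`P := 𝔪 R` is a prime ideal (`𝔪` the maximal ideal of `V`).  In the application
`R = V ⊗[k] B` for a domain `B` over an algebraically closed field `k`.

Main results (all Mathlib-only):

* `exists_content` : a finite family in `R`, not all zero, is `v • y` with `v ∈ V ∖ 0` and some
  `y i ∉ P`  (content of a family).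
* `exists_content_hom` : content of a linear map between f.g. projective modules.
* `scalar_notMem_of_comp` : Gauss lemma for maps between invertible modules (rank one).
* `exists_equiv_of_comp_eq` : if `g ∘ h = c` with `0 ≠ c ∈ V`, then `h = v • e` with `e` an
  isomorphism.
* `exists_equiv_of_loc` : an isomorphism between the "generic fibres" of two invertible
  `R`-modules is, up to a scalar of `Frac V`, induced by an isomorphism over `R`.
* `exists_unit_smul_eq` : the scalar is unique up to a unit of `V`.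
-/

set_option autoImplicit false

open IsLocalRing

namespace Fermat.Agent.S25.H506

section Valuation

variable {V : Type*} [CommRing V] [IsDomain V] [ValuationRing V]

/-- In a valuation ring, a finite family which is not identically zero has a nonzero member
dividing all the others. -/
theorem exists_dvd_all {ι : Type*} (s : Finset ι) (c : ι → V) (h : ∃ i ∈ s, c i ≠ 0) :
    ∃ i₀ ∈ s, c i₀ ≠ 0 ∧ ∀ i ∈ s, c i₀ ∣ c i := by
  classical
  induction s using Finset.induction_on with
  | empty => obtain ⟨i, hi, -⟩ := h; simp at hi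
  | insert a s ha ih =>
    by_cases hs : ∃ i ∈ s, c i ≠ 0
    · obtain ⟨i₀, hi₀, hne, hdvd⟩ := ih hs
      rcases ValuationRing.dvd_total (c i₀) (c a) with h1 | h1
      · refine ⟨i₀, Finset.mem_insert_of_mem hi₀, hne, fun i hi => ?_⟩
        rcases Finset.mem_insert.mp hi with rfl | hi
        · exact h1
        · exact hdvd i hi
      · have hane : c a ≠ 0 := by
          rintro h0
          rw [h0, zero_dvd_iff] at h1
          exact hne h1
        refine ⟨a, Finset.mem_insert_self a s, hane, fun i hi => ?_⟩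
        rcases Finset.mem_insert.mp hi with rfl | hi
        · exact dvd_rfl
        · exact h1.trans (hdvd i hi)
    · push Not at hs
      obtain ⟨i, hi, hne⟩ := h
      rcases Finset.mem_insert.mp hi with rfl | hi
      · refine ⟨i, Finset.mem_insert_self i s, hne, fun j hj => ?_⟩
        rcases Finset.mem_insert.mp hj with rfl | hj
        · exact dvd_rfl
        · rw [hs j hj]; exact dvd_zero _
      · exact absurd (hs i hi) hne

end Valuation

section Content

variable (V : Type*) [CommRing V] (R : Type*) [CommRing R] [Algebra V R]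

/-- The ideal `𝔪 R` of `R` generated by the maximal ideal of the local ring `V`. -/
noncomputable abbrev maxMap [IsLocalRing V] : Ideal R := (maximalIdeal V).map (algebraMap V R)

variable {V R}

/-- A `V`-linear functional on `R` maps `𝔪 R` into `𝔪`. -/
theorem functional_mem_of_mem_maxMap [IsLocalRing V] {r : R} (hr : r ∈ maxMap V R) :
    ∀ ℓ : R →ₗ[V] V, ℓ r ∈ maximalIdeal V := by
  unfold maxMap Ideal.map at hr
  induction hr using Submodule.span_induction with
  | mem x hx =>
    obtain ⟨a, ha, rfl⟩ := hx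
    intro ℓ
    rw [Algebra.algebraMap_eq_smul_one, map_smul, smul_eq_mul]
    exact Ideal.mul_mem_right _ _ ha
  | zero => intro ℓ; simp
  | add x y _ _ hx hy => intro ℓ; rw [map_add]; exact Ideal.add_mem _ (hx ℓ) (hy ℓ)
  | smul a x _ hx =>
    intro ℓ
    have := hx (ℓ ∘ₗ (LinearMap.mulLeft V a))
    simpa using this

theorem algebraMap_mem_maxMap [IsLocalRing V] {a : V} (ha : a ∈ maximalIdeal V) :
    algebraMap V R a ∈ maxMap V R :=
  Ideal.mem_map_of_mem _ ha

/-- An `R`-linear functional maps `P • ⊤` into `P`. -/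
theorem apply_mem_of_mem_smul_top (P : Ideal R) {M : Type*} [AddCommGroup M] [Module R M]
    (ℓ : M →ₗ[R] R) {z : M} (hz : z ∈ P • (⊤ : Submodule R M)) : ℓ z ∈ P := by
  refine Submodule.smul_induction_on hz (fun r hr m _ => ?_) (fun x y hx hy => ?_)
  · rw [map_smul, smul_eq_mul]; exact P.mul_mem_right _ hr
  · rw [map_add]; exact P.add_mem hx hy

end Content

section Content2

variable {V : Type*} [CommRing V] [IsDomain V] [ValuationRing V]
variable {R : Type*} [CommRing R] [Algebra V R] [Module.Free V R]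

omit [ValuationRing V] in
theorem algebraMap_mul_cancel {v : V} (hv : v ≠ 0) {r s : R}
    (h : algebraMap V R v * r = algebraMap V R v * s) : r = s := by
  rw [← Algebra.smul_def, ← Algebra.smul_def] at h
  exact smul_right_injective R hv h

/-- Content of a finite family in `R`: a family which is not identically zero is `v • y` with
`v ≠ 0` in `V` and some `y i` outside `𝔪 R`. -/
theorem exists_content {ι : Type*} [Finite ι] (x : ι → R) (hx : ∃ i, x i ≠ 0) :
    ∃ v : V, v ≠ 0 ∧ ∃ y : ι → R, (∀ i, x i = algebraMap V R v * y i) ∧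
      ∃ i, y i ∉ maxMap V R := by
  classical
  have := Fintype.ofFinite ι
  let b := Module.Free.chooseBasis V R
  let S : Finset (Module.Free.ChooseBasisIndex V R) :=
    Finset.univ.biUnion fun i => (b.repr (x i)).support
  let c : ι × Module.Free.ChooseBasisIndex V R → V := fun p => b.repr (x p.1) p.2
  have hc : ∃ p ∈ (Finset.univ ×ˢ S), c p ≠ 0 := by
    obtain ⟨i, hi⟩ := hx
    have : b.repr (x i) ≠ 0 := fun h => hi (b.repr.map_eq_zero_iff.mp h)
    obtain ⟨l, hl⟩ := Finsupp.support_nonempty_iff.mpr this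
    refine ⟨(i, l), ?_, Finsupp.mem_support_iff.mp hl⟩
    simp only [Finset.mem_product, Finset.mem_univ, true_and, S, Finset.mem_biUnion]
    exact ⟨i, hl⟩
  obtain ⟨⟨i₀, l₀⟩, -, hne, hdvd⟩ := exists_dvd_all _ c hc
  set v := c (i₀, l₀) with hv
  have hdvd' : ∀ i l, v ∣ b.repr (x i) l := by
    intro i l
    by_cases hl : l ∈ S
    · exact hdvd (i, l) (by simp [hl])
    · have : b.repr (x i) l = 0 := by
        by_contra h0
        apply hl
        simp only [S, Finset.mem_biUnion, Finset.mem_univ, true_and]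
        exact ⟨i, Finsupp.mem_support_iff.mpr h0⟩
      rw [this]; exact dvd_zero _
  let g : V → V := fun t => if h : v ∣ t then h.choose else 0
  have hg : ∀ t, v ∣ t → v * g t = t := by
    intro t ht
    simp only [g, dif_pos ht]
    exact ht.choose_spec.symm
  have hg0 : g 0 = 0 := by
    have := hg 0 (dvd_zero _)
    rcases mul_eq_zero.mp this with h | h
    · exact absurd h hne
    · exact h
  let y : ι → R := fun i => b.repr.symm ((b.repr (x i)).mapRange g hg0)
  have hy : ∀ i, x i = algebraMap V R v * y i := by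
    intro i
    apply b.repr.injective
    ext l
    rw [← Algebra.smul_def, map_smul]
    simp only [y, LinearEquiv.apply_symm_apply, Finsupp.smul_apply, Finsupp.mapRange_apply,
      smul_eq_mul]
    exact (hg _ (hdvd' i l)).symm
  refine ⟨v, hne, y, hy, i₀, fun hmem => ?_⟩
  have h1 := functional_mem_of_mem_maxMap hmem (b.coord l₀)
  have h2 : b.coord l₀ (y i₀) = 1 := by
    simp only [y, Module.Basis.coord_apply, LinearEquiv.apply_symm_apply, Finsupp.mapRange_apply]
    have := hg v dvd_rfl
    have h3 : b.repr (x i₀) l₀ = v := rfl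
    rw [h3]
    exact mul_left_cancel₀ hne (this.trans (mul_one v).symm)
  rw [h2] at h1
  exact (maximalIdeal.isMaximal V).ne_top ((Ideal.eq_top_iff_one _).mpr h1)

end Content2

section Proj

variable {R : Type*} [CommRing R]

/-- For a retract `N` of `Fin n → R`, membership in `P • ⊤` can be tested on coordinates. -/
theorem mem_smul_top_of_coord (P : Ideal R) {N : Type*} [AddCommGroup N] [Module R N] {n : ℕ}
    (p : (Fin n → R) →ₗ[R] N) (i : N →ₗ[R] (Fin n → R)) (hpi : p ∘ₗ i = LinearMap.id) (z : N)
    (hz : ∀ a, i z a ∈ P) : z ∈ P • (⊤ : Submodule R N) := by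
  have h1 : z = p (i z) := by
    have := congr($hpi z)
    simpa using this.symm
  have h2 : i z = ∑ a, i z a • (Pi.single a (1 : R) : Fin n → R) := by
    ext c
    simp [Finset.sum_apply, Pi.single_apply]
  rw [h1, h2, map_sum]
  refine Submodule.sum_mem _ fun a _ => ?_
  rw [map_smul]
  exact Submodule.smul_mem_smul (hz a) Submodule.mem_top

/-- For a retract `N` of a free module and a prime `P`: `a • z ∈ P N`, `z ∉ P N` imply
`a ∈ P`. -/
theorem mem_of_smul_mem_smul_top (P : Ideal R) [P.IsPrime] {N : Type*} [AddCommGroup N]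
    [Module R N] [Module.Finite R N] [Module.Projective R N] {a : R} {z : N}
    (haz : a • z ∈ P • (⊤ : Submodule R N)) (hz : z ∉ P • (⊤ : Submodule R N)) : a ∈ P := by
  obtain ⟨n, p, i, -, -, hpi⟩ := Module.Finite.exists_comp_eq_id_of_projective R N
  by_contra ha
  apply hz
  refine mem_smul_top_of_coord P p i hpi z fun c => ?_
  have h1 := apply_mem_of_mem_smul_top P ((LinearMap.proj c) ∘ₗ i) haz
  simp only [LinearMap.coe_comp, Function.comp_apply, map_smul, LinearMap.proj_apply,
    smul_eq_mul] at h1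
  exact (Ideal.IsPrime.mem_or_mem ‹_› h1).resolve_left ha

end Proj

section ContentHom

variable {V : Type*} [CommRing V] [IsDomain V] [ValuationRing V]
variable {R : Type*} [CommRing R] [Algebra V R] [Module.Free V R]
variable {N N' : Type*} [AddCommGroup N] [Module R N] [AddCommGroup N'] [Module R N']

omit [ValuationRing V] in
/-- A projective `R`-module has no `V`-torsion. -/
theorem smul_cancel_of_projective [Module.Projective R N'] {v : V} (hv : v ≠ 0) {z z' : N'}
    (h : algebraMap V R v • z = algebraMap V R v • z') : z = z' := by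
  obtain ⟨s, hs⟩ := Module.projective_def'.mp (inferInstance : Module.Projective R N')
  have hinj : Function.Injective s := by
    intro a b hab
    have := congr(Finsupp.linearCombination R id $hab)
    have e1 := congr($hs a)
    have e2 := congr($hs b)
    simp only [LinearMap.coe_comp, Function.comp_apply, LinearMap.id_coe, id_eq] at e1 e2
    rw [← e1, ← e2]; exact this
  apply hinj
  have h1 := congr(s $h)
  rw [map_smul, map_smul] at h1
  ext l
  have h2 := congr($h1 l)
  simp only [Finsupp.smul_apply, smul_eq_mul] at h2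
  exact algebraMap_mul_cancel hv h2

/-- Content of a linear map: a nonzero linear map `h : N → N'` from a finite module to a finite
projective module is `v • h₁` with `0 ≠ v ∈ V` and `h₁` nonzero modulo `𝔪`. -/
theorem exists_content_hom [Module.Finite R N] [Module.Finite R N'] [Module.Projective R N']
    (h : N →ₗ[R] N') (hh : h ≠ 0) :
    ∃ v : V, v ≠ 0 ∧ ∃ h₁ : N →ₗ[R] N', (∀ n, h n = algebraMap V R v • h₁ n) ∧
      ∃ n, h₁ n ∉ (maxMap V R) • (⊤ : Submodule R N') := by
  obtain ⟨r, g, hg⟩ := Module.Finite.exists_fin (R := R) (M := N)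
  obtain ⟨m, p, i, -, hi, hpi⟩ := Module.Finite.exists_comp_eq_id_of_projective R N'
  have hpi' : ∀ z, p (i z) = z := fun z => by simpa using congr($hpi z)
  let x : Fin r × Fin m → R := fun q => i (h (g q.1)) q.2
  have hx : ∃ q, x q ≠ 0 := by
    by_contra hcon
    push Not at hcon
    apply hh
    apply LinearMap.ext_on_range hg
    intro b
    rw [LinearMap.zero_apply]
    apply hi
    rw [map_zero]
    ext a
    exact hcon (b, a)
  obtain ⟨v, hv, y, hy, ⟨b₀, a₀⟩, hy₀⟩ := exists_content (V := V) x hx
  -- multiplication by `v` on `N'`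
  let μ : N' →ₗ[R] N' := algebraMap V R v • LinearMap.id
  have hμ : Function.Injective μ := fun z z' hzz' => smul_cancel_of_projective hv hzz'
  have hrange : ∀ n, h n ∈ LinearMap.range μ := by
    intro n
    have hn : n ∈ Submodule.span R (Set.range g) := by rw [hg]; trivial
    induction hn using Submodule.span_induction with
    | mem z hz =>
      obtain ⟨b, rfl⟩ := hz
      refine ⟨p (fun a => y (b, a)), ?_⟩
      have : i (h (g b)) = algebraMap V R v • (fun a => y (b, a)) := by
        ext a
        exact hy (b, a)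
      change algebraMap V R v • p (fun a => y (b, a)) = _
      rw [← map_smul, ← this, hpi']
    | zero => rw [map_zero]; exact Submodule.zero_mem _
    | add z z' _ _ hz hz' => rw [map_add]; exact Submodule.add_mem _ hz hz'
    | smul a z _ hz => rw [map_smul]; exact Submodule.smul_mem _ _ hz
  let h₁ : N →ₗ[R] N' :=
    (LinearEquiv.ofInjective μ hμ).symm.toLinearMap ∘ₗ h.codRestrict (LinearMap.range μ) hrange
  have hh₁ : ∀ n, h n = algebraMap V R v • h₁ n := by
    intro n
    have : μ (h₁ n) = h n := by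
      have := (LinearEquiv.ofInjective μ hμ).apply_symm_apply
        (h.codRestrict (LinearMap.range μ) hrange n)
      exact congr(($this : N'))
    exact this.symm
  refine ⟨v, hv, h₁, hh₁, g b₀, fun hmem => hy₀ ?_⟩
  have h1 := apply_mem_of_mem_smul_top _ ((LinearMap.proj a₀) ∘ₗ i) hmem
  simp only [LinearMap.coe_comp, Function.comp_apply, LinearMap.proj_apply] at h1
  have h2 : algebraMap V R v * i (h₁ (g b₀)) a₀ = algebraMap V R v * y (b₀, a₀) := by
    rw [← hy (b₀, a₀)]
    change _ = i (h (g b₀)) a₀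
    rw [hh₁ (g b₀), map_smul]
    rfl
  rw [← algebraMap_mul_cancel hv h2]
  exact h1

end ContentHom

section Gauss

variable {R : Type*} [CommRing R]
variable {N N' : Type*} [AddCommGroup N] [Module R N] [AddCommGroup N'] [Module R N']

/-- Rank one: in an invertible module, `ψ x • y = ψ y • x` for every functional `ψ`. -/
theorem functional_smul_comm [Module.Invertible R N'] (ψ : N' →ₗ[R] R) (x y : N') :
    ψ x • y = ψ y • x := by
  have h := Module.Invertible.tmul_comm (R := R) (m₁ := x) (m₂ := y)
  have := congr(TensorProduct.lift ((LinearMap.lsmul R N').comp ψ) $h)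
  simpa using this

/-- **Gauss lemma** for invertible modules: if `g₁ ∘ h₁ = w` and both `h₁`, `g₁` are nonzero
modulo the prime `P`, then `w ∉ P`. -/
theorem scalar_notMem_of_comp (P : Ideal R) [P.IsPrime] [Module.Invertible R N]
    [Module.Invertible R N'] (h₁ : N →ₗ[R] N') (g₁ : N' →ₗ[R] N) (w : R)
    (hw : ∀ n, g₁ (h₁ n) = w • n)
    (hh : ∃ n, h₁ n ∉ P • (⊤ : Submodule R N'))
    (hg : ∃ n', g₁ n' ∉ P • (⊤ : Submodule R N)) : w ∉ P := by
  intro hwP
  obtain ⟨n₀, hn₀⟩ := hh
  obtain ⟨y, hy⟩ := hg
  set x := h₁ n₀ with hx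
  -- every functional sends `x` into `P`
  have hψ : ∀ ψ : N' →ₗ[R] R, ψ x ∈ P := by
    intro ψ
    have h1 : ψ x • g₁ y = w • (ψ y • n₀) := by
      rw [← map_smul, functional_smul_comm ψ x y, map_smul, hx, hw, smul_comm]
    have h2 : ψ x • g₁ y ∈ P • (⊤ : Submodule R N) := by
      rw [h1]; exact Submodule.smul_mem_smul hwP Submodule.mem_top
    exact mem_of_smul_mem_smul_top P h2 hy
  obtain ⟨m, p, i, -, -, hpi⟩ := Module.Finite.exists_comp_eq_id_of_projective R N'
  apply hn₀
  exact mem_smul_top_of_coord P p i hpi x fun a => hψ ((LinearMap.proj a) ∘ₗ i)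

end Gauss

section Assembly

variable {V : Type*} [CommRing V] [IsDomain V] [ValuationRing V]
variable {R : Type*} [CommRing R] [Algebra V R] [Module.Free V R]
variable {N N' : Type*} [AddCommGroup N] [Module R N] [AddCommGroup N'] [Module R N']
variable [Module.Invertible R N] [Module.Invertible R N']

omit [ValuationRing V] [Module.Free V R] [Module.Invertible R N'] in
/-- Scalars acting in the same way on an invertible module are equal. -/
theorem eq_of_smul_eq {r s : R} (h : ∀ n : N, r • n = s • n) : r = s :=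
  (Module.Invertible.toModuleEnd_bijective R N).1 (LinearMap.ext h)

/-- If `w ∉ 𝔪 R` and `v₁ w = c` in `R` with `v₁, c ∈ V ∖ 0`, then `w` is a unit of `V`. -/
theorem exists_unit_of_mul_eq [(maxMap V R).IsPrime] {w : R} (hw : w ∉ maxMap V R)
    {v c : V} (hv : v ≠ 0) (hc : c ≠ 0)
    (h : algebraMap V R v * w = algebraMap V R c) : ∃ u : Vˣ, w = algebraMap V R u := by
  have hne : (1 : R) ∉ maxMap V R := fun h1 =>
    (Ideal.IsPrime.ne_top ‹_›) ((Ideal.eq_top_iff_one _).mpr h1)
  have hunit : ∀ t : V, algebraMap V R t ∉ maxMap V R → IsUnit t := by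
    intro t ht
    by_contra hnu
    exact ht (algebraMap_mem_maxMap ((mem_maximalIdeal t).mpr hnu))
  rcases ValuationRing.dvd_total c v with ⟨t, ht⟩ | ⟨t, ht⟩
  · -- v = c t, so (t w) = 1
    have h1 : algebraMap V R t * w = 1 := by
      apply algebraMap_mul_cancel hc
      rw [← mul_assoc, ← map_mul, ← ht, h, mul_one]
    have htu : IsUnit t := by
      apply hunit
      intro hmem
      apply hne
      rw [← h1]
      exact Ideal.mul_mem_right _ _ hmem
    obtain ⟨u, rfl⟩ := htu
    refine ⟨u⁻¹, ?_⟩
    calc w = algebraMap V R ((u⁻¹ : Vˣ) : V) * (algebraMap V R (u : V) * w) := by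
          rw [← mul_assoc, ← map_mul, Units.inv_mul, map_one, one_mul]
      _ = algebraMap V R ((u⁻¹ : Vˣ) : V) := by rw [h1, mul_one]
  · -- c = v t, so w = t
    have h1 : w = algebraMap V R t := by
      apply algebraMap_mul_cancel hv
      rw [h, ht, map_mul]
    have htu : IsUnit t := hunit t (h1 ▸ hw)
    obtain ⟨u, rfl⟩ := htu
    exact ⟨u, h1⟩

/-- If `g ∘ h = c` with `0 ≠ c ∈ V`, then `h` is a `V`-multiple of an isomorphism. -/
theorem exists_equiv_of_comp_eq [(maxMap V R).IsPrime] (h : N →ₗ[R] N') (g : N' →ₗ[R] N)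
    (c : V) (hc : c ≠ 0) (hgh : ∀ n, g (h n) = algebraMap V R c • n) :
    ∃ v : V, v ≠ 0 ∧ ∃ e : N ≃ₗ[R] N', ∀ n, h n = algebraMap V R v • e n := by
  have hne : (1 : R) ∉ maxMap V R := fun h1 =>
    (Ideal.IsPrime.ne_top ‹_›) ((Ideal.eq_top_iff_one _).mpr h1)
  have hc' : algebraMap V R c ≠ 0 := by
    intro h0
    have : algebraMap V R c * 1 = algebraMap V R c * 0 := by rw [h0, zero_mul, zero_mul]
    have := algebraMap_mul_cancel hc this
    apply hne
    rw [this]; exact Ideal.zero_mem _
  have hcomp : g ∘ₗ h ≠ 0 := by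
    intro h0
    apply hc'
    apply eq_of_smul_eq (N := N)
    intro n
    rw [← hgh, zero_smul]
    exact congr($h0 n)
  have hh : h ≠ 0 := fun h0 => hcomp (by rw [h0, LinearMap.comp_zero])
  have hg : g ≠ 0 := fun h0 => hcomp (by rw [h0, LinearMap.zero_comp])
  obtain ⟨v₁, hv₁, h₁, hh₁, hh₁'⟩ := exists_content_hom (V := V) h hh
  obtain ⟨v₂, hv₂, g₁, hg₁, hg₁'⟩ := exists_content_hom (V := V) g hg
  obtain ⟨w, hw⟩ := (Module.Invertible.toModuleEnd_bijective R N).2 (g₁ ∘ₗ h₁)
  have hw' : ∀ n, g₁ (h₁ n) = w • n := fun n => (congr($hw n)).symm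
  have hwP : w ∉ maxMap V R := scalar_notMem_of_comp _ h₁ g₁ w hw' hh₁' hg₁'
  have hmul : algebraMap V R (v₂ * v₁) * w = algebraMap V R c := by
    apply eq_of_smul_eq (N := N)
    intro n
    rw [← hgh, hh₁, map_smul, hg₁, hw', map_mul, mul_smul, mul_smul]
    exact smul_comm _ _ _
  obtain ⟨u, hu⟩ := exists_unit_of_mul_eq hwP (mul_ne_zero hv₂ hv₁) hc hmul
  let g' : N' →ₗ[R] N := algebraMap V R ((u⁻¹ : Vˣ) : V) • g₁
  have hleft : Function.LeftInverse g' h₁ := by
    intro n
    change algebraMap V R ((u⁻¹ : Vˣ) : V) • g₁ (h₁ n) = n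
    rw [hw', hu, ← mul_smul, ← map_mul, Units.inv_mul, map_one, one_smul]
  refine ⟨v₁, hv₁, (Module.Invertible.linearEquivOfLeftInverse hleft).symm, fun n => ?_⟩
  rw [hh₁]
  rfl

end Assembly

section Loc

variable (V : Type*) [CommRing V] {R : Type*} [CommRing R] [Algebra V R]
variable {R' : Type*} [CommRing R'] (ρ : R →+* R')
variable {N : Type*} [AddCommGroup N] [Module R N]
variable {NK : Type*} [AddCommGroup NK] [Module R' NK]

/-- `b : N → NK` is injective and every element of `NK` becomes an element of `N` after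
multiplication by a nonzero element of `V` ("`NK` is the generic fibre of `N`"). -/
structure IsGenericLoc (b : N →ₛₗ[ρ] NK) : Prop where
  inj : Function.Injective b
  surj : ∀ y : NK, ∃ v : V, v ≠ 0 ∧ ∃ n : N, ρ (algebraMap V R v) • y = b n

variable {V ρ}
variable {N' : Type*} [AddCommGroup N'] [Module R N']
variable {NK' : Type*} [AddCommGroup NK'] [Module R' NK']

/-- Clearing denominators of a linear map between generic fibres. -/
theorem exists_hom_of_loc [IsDomain V] [Module.Finite R N] {b : N →ₛₗ[ρ] NK}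
    {b' : N' →ₛₗ[ρ] NK'} (hb' : IsGenericLoc V ρ b') (F : NK →ₗ[R'] NK') :
    ∃ v : V, v ≠ 0 ∧ ∃ h : N →ₗ[R] N', ∀ n, b' (h n) = ρ (algebraMap V R v) • F (b n) := by
  classical
  obtain ⟨r, g, hg⟩ := Module.Finite.exists_fin (R := R) (M := N)
  choose vj hvj nj hnj using fun j => hb'.surj (F (b (g j)))
  let v : V := ∏ j, vj j
  have hv : v ≠ 0 := Finset.prod_ne_zero_iff.mpr fun j _ => hvj j
  let S : Submodule R N :=
    { carrier := {n | ρ (algebraMap V R v) • F (b n) ∈ Set.range b'}
      add_mem' := by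
        rintro x y ⟨x', hx⟩ ⟨y', hy⟩
        refine ⟨x' + y', ?_⟩
        rw [map_add, hx, hy, map_add, map_add, smul_add]
      zero_mem' := ⟨0, by simp⟩
      smul_mem' := by
        rintro a x ⟨x', hx⟩
        refine ⟨a • x', ?_⟩
        rw [LinearMap.map_smulₛₗ, hx, LinearMap.map_smulₛₗ, map_smul, smul_comm] }
  have hS : S = ⊤ := by
    rw [eq_top_iff, ← hg, Submodule.span_le]
    rintro _ ⟨j, rfl⟩
    refine ⟨(algebraMap V R (∏ i ∈ Finset.univ.erase j, vj i)) • nj j, ?_⟩
    rw [LinearMap.map_smulₛₗ, ← hnj j, ← mul_smul, ← map_mul, ← map_mul,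
      Finset.prod_erase_mul _ _ (Finset.mem_univ j)]
  have hex : ∀ n, ∃ n', b' n' = ρ (algebraMap V R v) • F (b n) := by
    intro n
    have : n ∈ S := by rw [hS]; trivial
    exact this
  choose h hh using hex
  refine ⟨v, hv, ⟨⟨h, fun x y => ?_⟩, fun a x => ?_⟩, hh⟩
  · apply hb'.inj
    rw [map_add, hh, hh, hh, map_add, map_add, smul_add]
  · apply hb'.inj
    rw [RingHom.id_apply, LinearMap.map_smulₛₗ, hh, hh, LinearMap.map_smulₛₗ, map_smul,
      smul_comm]

end Loc

section Main

variable {V : Type*} [CommRing V] [IsDomain V] [ValuationRing V]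
variable {R : Type*} [CommRing R] [Algebra V R] [Module.Free V R]
variable {R' : Type*} [CommRing R'] {ρ : R →+* R'}
variable {N N' : Type*} [AddCommGroup N] [Module R N] [AddCommGroup N'] [Module R N']
variable [Module.Invertible R N] [Module.Invertible R N']
variable {NK NK' : Type*} [AddCommGroup NK] [Module R' NK] [AddCommGroup NK'] [Module R' NK']

/-- **Core of `Val`.** An isomorphism between the generic fibres of two invertible `R`-modules
is, up to a scalar of `Frac V`, induced by an isomorphism over `R`. -/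
theorem exists_equiv_of_loc [(maxMap V R).IsPrime] {b : N →ₛₗ[ρ] NK} {b' : N' →ₛₗ[ρ] NK'}
    (hb : IsGenericLoc V ρ b) (hb' : IsGenericLoc V ρ b') (f : NK ≃ₗ[R'] NK') :
    ∃ v v₁ : V, v ≠ 0 ∧ v₁ ≠ 0 ∧ ∃ e : N ≃ₗ[R] N',
      ∀ n, ρ (algebraMap V R v₁) • b' (e n) = ρ (algebraMap V R v) • f (b n) := by
  obtain ⟨v, hv, h, hh⟩ := exists_hom_of_loc (b := b) hb' f.toLinearMap
  obtain ⟨v', hv', g, hg⟩ := exists_hom_of_loc (b := b') hb f.symm.toLinearMap
  have hgh : ∀ n, g (h n) = algebraMap V R (v' * v) • n := by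
    intro n
    apply hb.inj
    rw [hg, hh, LinearMap.map_smulₛₗ b]
    simp only [LinearEquiv.coe_coe, map_smul, LinearEquiv.symm_apply_apply, map_mul, mul_smul]
  obtain ⟨v₁, hv₁, e, he⟩ := exists_equiv_of_comp_eq h g (v' * v) (mul_ne_zero hv' hv) hgh
  refine ⟨v, v₁, hv, hv₁, e, fun n => ?_⟩
  rw [← LinearMap.map_smulₛₗ, ← he, hh]
  rfl

/-- The scalar in `exists_equiv_of_loc` is unique up to a unit of `V`. -/
theorem exists_unit_smul_eq [(maxMap V R).IsPrime] (e e' : N ≃ₗ[R] N') {A B : V}
    (hA : A ≠ 0) (hB : B ≠ 0) (h : ∀ n, algebraMap V R A • e n = algebraMap V R B • e' n) :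
    ∃ u : Vˣ, ∀ n, e n = algebraMap V R (u : V) • e' n := by
  obtain ⟨w, hw⟩ := (Module.Invertible.toModuleEnd_bijective R N).2
    (e'.symm.toLinearMap ∘ₗ e.toLinearMap)
  obtain ⟨w', hw'⟩ := (Module.Invertible.toModuleEnd_bijective R N).2
    (e.symm.toLinearMap ∘ₗ e'.toLinearMap)
  have hwn : ∀ n, w • n = e'.symm (e n) := fun n => congr($hw n)
  have hwn' : ∀ n, w' • n = e.symm (e' n) := fun n => congr($hw' n)
  have hew : ∀ n, e n = w • e' n := by
    intro n
    rw [← map_smul, hwn, LinearEquiv.apply_symm_apply]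
  have hww' : w' * w = 1 := by
    apply eq_of_smul_eq (N := N)
    intro n
    rw [mul_smul, hwn, hwn', LinearEquiv.apply_symm_apply, LinearEquiv.symm_apply_apply, one_smul]
  have hwP : w ∉ maxMap V R := by
    intro hmem
    have h1 : (1 : R) ∈ maxMap V R := by rw [← hww']; exact Ideal.mul_mem_left _ _ hmem
    exact (Ideal.IsPrime.ne_top ‹_›) ((Ideal.eq_top_iff_one _).mpr h1)
  have hmul : algebraMap V R A * w = algebraMap V R B := by
    apply eq_of_smul_eq (N := N')
    intro n'
    obtain ⟨n, rfl⟩ := e'.surjective n'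
    rw [mul_smul, ← hew, h]
  obtain ⟨u, hu⟩ := exists_unit_of_mul_eq hwP hA hB hmul
  exact ⟨u, fun n => by rw [hew, hu]⟩

end Main

end Fermat.Agent.S25.H506
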