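import Fermat.Agent.S25.DefsAlg
import Fermat.Agent.S25.H506.ValCore

/-!
# S25, block ALGVAL: ring-level input for the Gauss route

For a valuation ring `V` over a field `k`, `K = Frac V` and a `k`-algebra `B`:
* `maxMap_isPrime` : `𝔪 (V ⊗[k] B)` is prime as soon as `κ ⊗[k] B` is a domain;
* `tensorMapLeft_injective`, `tensorMapLeft_loc` : `K ⊗[k] B` is the localisation of
  `V ⊗[k] B` at `V ∖ 0`;
* `isGenericLoc_of_isSemilinearBaseChange` : a semilinear base change map `N → NK` of a flat
  module along such a ring map is a generic localisation in the sense of `ValCore`.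
-/

set_option autoImplicit false
set_option linter.unusedSectionVars false
universe u
open scoped TensorProduct
open IsLocalRing

namespace Fermat.Agent.S25.H506

open Fermat.Agent.S25

section Prime

variable {k : Type u} [Field k] (V : Type u) [CommRing V] [IsLocalRing V] [Algebra k V]
  (B : Type u) [CommRing B] [Algebra k B]

/-- `𝔪 (V ⊗[k] B)` is the kernel of `V ⊗[k] B → κ ⊗[k] B`, hence prime if the latter is a
domain. -/
theorem maxMap_isPrime [IsDomain (ResidueField V ⊗[k] B)] :
    (maxMap V (V ⊗[k] B)).IsPrime := by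
  let res : V →ₐ[k] ResidueField V := IsScalarTower.toAlgHom k V (ResidueField V)
  have hres : Function.Surjective res := IsLocalRing.residue_surjective
  have hker : RingHom.ker res = maximalIdeal V := IsLocalRing.ker_residue
  have h1 := Algebra.TensorProduct.rTensor_ker (R := k) (S := k) (C := B) res hres
  have h2 : maxMap V (V ⊗[k] B) =
      RingHom.ker (Algebra.TensorProduct.map res (AlgHom.id k B)) := by
    rw [h1, hker]
    rfl
  rw [h2]
  exact RingHom.ker_isPrime _

end Prime

section Loc

variable (k : Type u) [Field k] (V : Type u) [CommRing V] [IsDomain V] [Algebra k V]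
  (K : Type u) [Field K] [Algebra V K] [IsFractionRing V K] [Algebra k K] [IsScalarTower k V K]
  (B : Type u) [CommRing B] [Algebra k B]

/-- The ring map `V ⊗[k] B → K ⊗[k] B`. -/
noncomputable abbrev genMap : V ⊗[k] B →+* K ⊗[k] B :=
  tensorMapLeft k (IsScalarTower.toAlgHom k V K) B

omit [IsDomain V] [IsFractionRing V K] in
@[simp]
theorem genMap_tmul (v : V) (β : B) :
    genMap k V K B (v ⊗ₜ[k] β) = (algebraMap V K v) ⊗ₜ[k] β := by
  simp [genMap, tensorMapLeft]

omit [IsDomain V] [IsFractionRing V K] in
@[simp]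
theorem genMap_algebraMap (v : V) :
    genMap k V K B (algebraMap V (V ⊗[k] B) v) = algebraMap K (K ⊗[k] B) (algebraMap V K v) := by
  change genMap k V K B (v ⊗ₜ[k] (1 : B)) = (algebraMap V K v) ⊗ₜ[k] (1 : B)
  exact genMap_tmul k V K B v 1

theorem genMap_injective : Function.Injective (genMap k V K B) := by
  have h1 : Function.Injective (IsScalarTower.toAlgHom k V K).toLinearMap :=
    IsFractionRing.injective V K
  have h2 := Module.Flat.rTensor_preserves_injective_linearMap (M := B)
    (IsScalarTower.toAlgHom k V K).toLinearMap h1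
  intro a b hab
  apply h2
  have : ∀ z : V ⊗[k] B, (LinearMap.rTensor B (IsScalarTower.toAlgHom k V K).toLinearMap) z =
      genMap k V K B z := by
    intro z
    induction z using TensorProduct.induction_on with
    | zero => simp
    | tmul v β => simp
    | add x y hx hy => rw [map_add, map_add, hx, hy]
  rw [this, this, hab]

/-- Every element of `K ⊗[k] B` has a denominator in `V ∖ 0`. -/
theorem genMap_loc (s : K ⊗[k] B) :
    ∃ v : V, v ≠ 0 ∧ ∃ r : V ⊗[k] B,
      genMap k V K B (algebraMap V (V ⊗[k] B) v) * s = genMap k V K B r := by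
  induction s using TensorProduct.induction_on with
  | zero => exact ⟨1, one_ne_zero, 0, by simp⟩
  | tmul c β =>
    obtain ⟨a, v, hv, rfl⟩ := IsFractionRing.div_surjective V c
    have hv0 : v ≠ 0 := nonZeroDivisors.ne_zero hv
    have hv1 : algebraMap V K v ≠ 0 := by
      intro h0
      exact hv0 ((IsFractionRing.injective V K) (h0.trans (map_zero _).symm))
    refine ⟨v, hv0, a ⊗ₜ[k] β, ?_⟩
    rw [genMap_algebraMap, Algebra.TensorProduct.algebraMap_apply, genMap_tmul,
      Algebra.TensorProduct.tmul_mul_tmul, one_mul]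
    congr 1
    simp only [Algebra.algebraMap_self, RingHom.id_apply]
    field_simp
  | add x y hx hy =>
    obtain ⟨v, hv, r, hr⟩ := hx
    obtain ⟨v', hv', r', hr'⟩ := hy
    refine ⟨v * v', mul_ne_zero hv hv', algebraMap V _ v' * r + algebraMap V _ v * r', ?_⟩
    calc genMap k V K B (algebraMap V (V ⊗[k] B) (v * v')) * (x + y)
        = genMap k V K B (algebraMap V (V ⊗[k] B) v') *
            (genMap k V K B (algebraMap V (V ⊗[k] B) v) * x) +
          genMap k V K B (algebraMap V (V ⊗[k] B) v) *
            (genMap k V K B (algebraMap V (V ⊗[k] B) v') * y) := by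
          rw [map_mul, map_mul]; ring
      _ = _ := by rw [hr, hr', map_add, map_mul, map_mul]

end Loc

section Module

variable {V : Type u} [CommRing V] {R R' : Type u} [CommRing R] [CommRing R'] [Algebra V R]
  (ρ : R →+* R')

/-- A semilinear base change map of a flat module along an injective ring map which is a
localisation at `V ∖ 0` is a generic localisation. -/
theorem isGenericLoc_of_isSemilinearBaseChange (hρ : Function.Injective ρ)
    (hloc : ∀ s : R', ∃ v : V, v ≠ 0 ∧ ∃ r : R, ρ (algebraMap V R v) * s = ρ r)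
    (hmul : ∀ v v' : V, v ≠ 0 → v' ≠ 0 → v * v' ≠ 0)
    {N NK : Type u} [AddCommGroup N] [Module R N] [Module.Flat R N] [AddCommGroup NK]
    [Module R' NK] (b : N →ₛₗ[ρ] NK) (hb : IsSemilinearBaseChange ρ b) :
    IsGenericLoc V ρ b := by
  let _ : Algebra R R' := ρ.toAlgebra
  let _ : Module R NK := Module.compHom NK ρ
  have : IsScalarTower R R' NK := ⟨fun r r' n => by
    change (ρ r * r') • n = ρ r • (r' • n); rw [mul_smul]⟩
  let bl : N →ₗ[R] NK :=
    { toFun := fun n => b n
      map_add' := fun m n => b.map_add m n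
      map_smul' := fun r n => LinearMap.map_smulₛₗ b r n }
  have hbl : IsBaseChange R' bl := hb
  refine ⟨?_, ?_⟩
  · -- injectivity
    have h1 : Function.Injective (LinearMap.rTensor N (Algebra.linearMap R R')) :=
      Module.Flat.rTensor_preserves_injective_linearMap _ hρ
    intro n n' hnn'
    have h2 : (1 : R') ⊗ₜ[R] n = (1 : R') ⊗ₜ[R] n' := by
      apply hbl.equiv.injective
      rw [hbl.equiv_tmul, hbl.equiv_tmul, one_smul, one_smul]
      exact hnn'
    have h3 : (1 : R) ⊗ₜ[R] n = (1 : R) ⊗ₜ[R] n' := by
      apply h1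
      simpa using h2
    have h4 := congr(TensorProduct.lid R N $h3)
    simpa using h4
  · intro y
    refine hbl.inductionOn y (fun y => ∃ v : V, v ≠ 0 ∧ ∃ n : N, ρ (algebraMap V R v) • y = b n)
      ⟨1, ?_, 0, by simp⟩ (fun n => ⟨1, ?_, n, by rw [map_one, map_one, one_smul]; rfl⟩) ?_ ?_
    · intro h10
      obtain ⟨v, hv, -⟩ := hloc 0
      exact hv (by rw [← mul_one v, h10, mul_zero])
    · intro h10
      obtain ⟨v, hv, -⟩ := hloc 0
      exact hv (by rw [← mul_one v, h10, mul_zero])
    · rintro s y ⟨v, hv, n, hn⟩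
      obtain ⟨v', hv', r, hr⟩ := hloc s
      refine ⟨v' * v, hmul v' v hv' hv, r • n, ?_⟩
      rw [LinearMap.map_smulₛₗ, ← hn, ← hr, map_mul, map_mul, ← mul_smul, ← mul_smul]
      congr 1
      ring
    · rintro y y' ⟨v, hv, n, hn⟩ ⟨v', hv', n', hn'⟩
      refine ⟨v * v', hmul v v' hv hv', algebraMap V R v' • n + algebraMap V R v • n', ?_⟩
      rw [map_add, LinearMap.map_smulₛₗ, LinearMap.map_smulₛₗ, ← hn, ← hn', smul_add,
        map_mul, map_mul, mul_smul, mul_smul,
        smul_comm (ρ (algebraMap V R v)) (ρ (algebraMap V R v')) y]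

end Module

end Fermat.Agent.S25.H506
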