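import Fermat.Agent.S25.DefsDict
import Fermat.Agent.S25.H506.AlgVal

/-!
# S25: `Stmt.Val` from the dictionary alone (no `DictDeg`, no degree theory)

`algVal` does not use the degree-zero hypotheses, so the pillar `Val` only needs the chart, the
three dictionary statements `DictSections`, `DictIso`, `DictBC` and `AlgBCExists`.
-/

set_option autoImplicit false
set_option linter.unusedSectionVars false
set_option linter.style.haveILetI false
universe u
open CategoryTheory CategoryTheory.Limits AlgebraicGeometry AlgebraicGeometry.RelPicard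
  NeronModelInfra GoodReductionJacobian
open scoped TensorProduct
open IsLocalRing

namespace Fermat.Agent.S25.H506

open Fermat.Agent.S25

section Alg

variable {k : Type u} [Field k] [IsAlgClosed k]
variable {B₀ B₁ B₀₁ : Type u} [CommRing B₀] [CommRing B₁] [CommRing B₀₁]
  [Algebra k B₀] [Algebra k B₁] [Algebra k B₀₁] [Algebra B₀ B₀₁] [Algebra B₁ B₀₁]
  [IsScalarTower k B₀ B₀₁] [IsScalarTower k B₁ B₀₁]

/-- `Stmt.AlgVal` without the degree hypotheses: it is enough that `B₀`, `B₁` are domains and
`B₀₁` is a localisation of `B₀` away from one element. -/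
theorem isIso_of_isBC_of_isIso [IsDomain B₀] [IsDomain B₁] (x : B₀)
    [IsLocalization.Away x B₀₁]
    (V : Type u) [CommRing V] [IsDomain V] [ValuationRing V] [Algebra k V]
    (K : Type u) [Field K] [Algebra V K] [IsFractionRing V K] [Algebra k K]
    [IsScalarTower k V K] (G G' : CurveGD k B₀ B₁ B₀₁ V) (GK GK' : CurveGD k B₀ B₁ B₀₁ K)
    (hG : CurveGD.IsBC (IsScalarTower.toAlgHom k V K) G GK)
    (hG' : CurveGD.IsBC (IsScalarTower.toAlgHom k V K) G' GK') (hK : GK.IsIso GK') :
    G.IsIso G' := by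
  have hP₀ : (maxMap V (V ⊗[k] B₀)).IsPrime := by
    haveI : IsDomain (ResidueField V ⊗[k] B₀) :=
      H567.isDomain_tensorProduct_of_isAlgClosed k _ _
    exact maxMap_isPrime V B₀
  have hP₁ : (maxMap V (V ⊗[k] B₁)).IsPrime := by
    haveI : IsDomain (ResidueField V ⊗[k] B₁) :=
      H567.isDomain_tensorProduct_of_isAlgClosed k _ _
    exact maxMap_isPrime V B₁
  have hP₀₁ : Subsingleton (V ⊗[k] B₀₁) ∨ (maxMap V (V ⊗[k] B₀₁)).IsPrime := by
    rcases subsingleton_or_nontrivial B₀₁ with hs | hn
    · left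
      refine subsingleton_of_zero_eq_one ?_
      rw [Algebra.TensorProduct.one_def, Subsingleton.elim (1 : B₀₁) 0, TensorProduct.tmul_zero]
    · right
      have hx : x ≠ 0 := by
        rintro rfl
        haveI : Subsingleton B₀₁ :=
          IsLocalization.subsingleton (M := Submonoid.powers (0 : B₀)) (S := B₀₁)
            ⟨1, by simp⟩
        exact not_subsingleton B₀₁ ‹_›
      haveI : IsDomain B₀₁ :=
        IsLocalization.isDomain_of_le_nonZeroDivisors (M := Submonoid.powers x) B₀₁
          (powers_le_nonZeroDivisors_of_noZeroDivisors hx)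
      haveI : IsDomain (ResidueField V ⊗[k] B₀₁) :=
        H567.isDomain_tensorProduct_of_isAlgClosed k _ _
      exact maxMap_isPrime V B₀₁
  exact isIso_of_isIso_generic hP₀ hP₁ hP₀₁ G G' GK GK' hG hG' hK

end Alg

section Bridge

variable {k : Type u} [Field k] [IsAlgClosed k] {C : Scheme.{u}}
  {c : C ⟶ Spec (CommRingCat.of k)} {ε : SchemeHomOver (𝟙 (Spec (CommRingCat.of k))) c}

/-- **Pillar `Val`** from the chart and the dictionary; neither `DictDeg` nor any degree theory
is needed. -/
theorem val_of_dict (Ch : ChartOf c ε) (hSec : Stmt.DictSections Ch) (hIso : Stmt.DictIso Ch)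
    (hBC : Stmt.DictBC Ch) (hEx : Stmt.AlgBCExists Ch) : Stmt.Val c ε := by
  intro V _ _ _ _ K _ _ _ _ _ M M' _ _ hK
  obtain ⟨G, hG, -⟩ := hSec V M
  obtain ⟨G', hG', -⟩ := hSec V M'
  obtain ⟨GK, hGK⟩ := hEx V K (IsScalarTower.toAlgHom k V K) G
  obtain ⟨GK', hGK'⟩ := hEx V K (IsScalarTower.toAlgHom k V K) G'
  have h1 := hBC V K _ M G GK hG hGK
  have h2 := hBC V K _ M' G' GK' hG' hGK'
  have h3 : GK.IsIso GK' := (hIso K _ _ GK GK' h1 h2).1 hK
  haveI := Ch.isCurveChart.isDomain₀
  haveI := Ch.isCurveChart.isDomain₁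
  haveI : IsLocalization.Away Ch.x Ch.B₀₁ := Ch.isCurveChart.away₀
  have h4 : G.IsIso G' := isIso_of_isBC_of_isIso Ch.x V K G G' GK GK' hGK hGK' h3
  exact (hIso V M M' G G' hG hG').2 h4

end Bridge

end Fermat.Agent.S25.H506
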